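/-
S25 LIB, `Lib/Inv/ProjQuot.lean` (source piece: helper325 `Inv325.lean`, ported verbatim to the
Lib path by helper2450; namespace `Fermat.Agent.S25.Lib.Inv.ProjQuot`).  Mathlib-only.
Main results:

* `invertible_of_locally_principal`: an ideal `I` of a commutative ring `B` containing a
  non-zero-divisor `F` and locally principal at every maximal ideal (elementwise form
  `∃ t ∈ I, ∃ h ∉ 𝔫, ∀ x ∈ I, ∃ b, h * x = t * b`) is an invertible `B`-module.
* `exists_local_generator_of_fibre` (determinant trick): a generator of `I` modulo `J` near `𝔫`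
  is a generator near `𝔫`, provided `I ∩ J ⊆ J * I`.
* `inf_map_le_of_flat`: `B / I` flat over `S` implies `I ∩ 𝔪 B ⊆ 𝔪 B * I`.
* `exists_local_generator_of_isDedekindDomain`: ideals of Dedekind domains are locally principal.
* `invertible_of_dedekind_fibres` ((Inv), abstract form): `I` f.g., `B / I` finite flat over `S`,
  closed fibres `B / 𝔪 B` Dedekind, `I` contains a non-zero-divisor  ⟹  `Module.Invertible B I`.
* `invertible_of_finite_flat_quotient` ((Inv) for `B = S ⊗[k] A`): `k` algebraically closed,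
  `S`, `A` of finite type, `A` Dedekind, `(S ⊗ A) / I` finite flat over `S`, `I` contains a
  non-zero-divisor  ⟹  `Module.Invertible (S ⊗[k] A) I`.
* `exists_monic_aeval_mem`, `aeval_mem_nonZeroDivisors_of_injective`,
  `fg_of_finite_projective_quotient`.
* `invertible_of_finite_projective_quotient` ((Inv) over an ARBITRARY base `R`, no noetherian
  hypothesis, no non-zero-divisor to supply): `A` finite type over the field `k`, free over `k[f]`
  compatibly with base change to `R`, fibres `(R / 𝔪) ⊗[k] A` Dedekind, `(R ⊗ A) / I` finite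
  projective over `R`  ⟹  `Module.Invertible (R ⊗[k] A) I`.
-/
import Mathlib

set_option autoImplicit false

universe u

namespace Fermat.Agent.S25.Lib.Inv.ProjQuot

open scoped Pointwise

variable {B : Type u} [CommRing B]

/-- The colon ideal `(F : I)`. -/
def colon (I : Ideal B) (F : B) : Ideal B where
  carrier := {b | ∀ x ∈ I, b * x ∈ Ideal.span ({F} : Set B)}
  add_mem' := by
    intro a b ha hb x hx
    rw [add_mul]
    exact Ideal.add_mem _ (ha x hx) (hb x hx)
  zero_mem' := by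
    intro x _
    simp
  smul_mem' := by
    intro c a ha x hx
    rw [smul_eq_mul, mul_assoc]
    exact Ideal.mul_mem_left _ c (ha x hx)

lemma mem_colon {I : Ideal B} {F b : B} :
    b ∈ colon I F ↔ ∀ x ∈ I, b * x ∈ Ideal.span ({F} : Set B) := Iff.rfl

/-- If `I` is locally principal at every maximal ideal and contains `F`, then
`I * (F : I) = (F)`. -/
lemma mul_colon_eq_span {I : Ideal B} {F : B} (hF : F ∈ I)
    (hloc : ∀ 𝔫 : Ideal B, 𝔫.IsMaximal → ∃ t ∈ I, ∃ h, h ∉ 𝔫 ∧ ∀ x ∈ I, ∃ b, h * x = t * b) :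
    I * colon I F = Ideal.span ({F} : Set B) := by
  apply le_antisymm
  · rw [Ideal.mul_le]
    intro x hx b hb
    rw [mul_comm]
    exact hb x hx
  · rw [Ideal.span_singleton_le_iff_mem]
    -- the ideal of `x` with `x * F ∈ I * colon I F` is the unit ideal
    let Q : Ideal B := Submodule.comap (LinearMap.mulRight B F) (I * colon I F)
    have hQmem : ∀ x : B, x ∈ Q ↔ x * F ∈ I * colon I F := fun x => by
      simp only [Q, Submodule.mem_comap, LinearMap.mulRight_apply]
    have hQ : Q = ⊤ := by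
      by_contra hne
      obtain ⟨𝔫, h𝔫, hle⟩ := Ideal.exists_le_maximal Q hne
      obtain ⟨t, ht, h, hh, hprin⟩ := hloc 𝔫 h𝔫
      obtain ⟨u, hu⟩ := hprin F hF
      -- `u * h ∈ colon I F`
      have hcol : u * h ∈ colon I F := by
        intro x hx
        obtain ⟨b, hb⟩ := hprin x hx
        rw [Ideal.mem_span_singleton']
        refine ⟨b * h, ?_⟩
        calc b * h * F = b * (h * F) := by ring
          _ = b * (t * u) := by rw [hu]
          _ = u * (t * b) := by ring
          _ = u * (h * x) := by rw [hb]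
          _ = u * h * x := by ring
      have hmem : h * h ∈ Q := by
        rw [hQmem]
        have : h * h * F = t * (u * h) := by
          calc h * h * F = h * (h * F) := by ring
            _ = h * (t * u) := by rw [hu]
            _ = t * (u * h) := by ring
        rw [this]
        exact Ideal.mul_mem_mul ht hcol
      have : h * h ∈ 𝔫 := hle hmem
      exact hh ((h𝔫.isPrime.mem_or_mem this).elim id id)
    have h1 : (1 : B) ∈ Q := by rw [hQ]; trivial
    have : (1 : B) * F ∈ I * colon I F := (hQmem 1).mp h1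
    simpa using this

/-- **Invertibility criterion.**  An ideal containing a non-zero-divisor which is locally principal
at every maximal ideal is an invertible module. -/
theorem invertible_of_locally_principal (I : Ideal B) (F : B) (hF : F ∈ I)
    (hreg : F ∈ nonZeroDivisors B)
    (hloc : ∀ 𝔫 : Ideal B, 𝔫.IsMaximal → ∃ t ∈ I, ∃ h, h ∉ 𝔫 ∧ ∀ x ∈ I, ∃ b, h * x = t * b) :
    Module.Invertible B I := by
  let A := Localization.Away F
  have hinj : Function.Injective (algebraMap B A) :=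
    IsLocalization.injective A (M := Submonoid.powers F) (Submonoid.powers_le.mpr hreg)
  have : FaithfulSMul B A := (faithfulSMul_iff_algebraMap_injective B A).mpr hinj
  let ι : B →ₐ[B] A := Algebra.ofId B A
  let It : Submodule B A := Submodule.map ι.toLinearMap I
  let It' : Submodule B A := Submodule.map ι.toLinearMap (colon I F)
  let Finv : A := IsLocalization.Away.invSelf F
  have hFinv : algebraMap B A F * Finv = 1 := IsLocalization.Away.mul_invSelf F
  have hmul : It * (It' * Submodule.span B {Finv}) = 1 := by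
    rw [← mul_assoc, ← Submodule.map_mul, mul_colon_eq_span hF hloc]
    rw [Ideal.span, Submodule.map_span, Set.image_singleton, Submodule.span_mul_span,
      Set.singleton_mul_singleton]
    rw [show ι.toLinearMap F * Finv = 1 from hFinv, Submodule.one_eq_span]
  let U : (Submodule B A)ˣ := Units.mkOfMulEqOne It _ hmul
  have hUinv : Module.Invertible B (U : Submodule B A) := inferInstance
  have hIt : Module.Invertible B It := hUinv
  have e : I ≃ₗ[B] It := Submodule.equivMapOfInjective ι.toLinearMap hinj I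
  exact Module.Invertible.congr e.symm

section determinantTrick

open Polynomial

variable {B : Type u} [CommRing B]

/-- A monic polynomial whose lower coefficients lie in a prime ideal `𝔫` does not vanish mod `𝔫`
at an element outside `𝔫`. -/
lemma eval_notMem_of_monic {𝔫 : Ideal B} [𝔫.IsPrime] {J : Ideal B} (hJ : J ≤ 𝔫) {p : B[X]}
    (hp : p.Monic) (hcoeff : ∀ k, p.coeff k ∈ J ^ (p.natDegree - k)) {h₁ : B} (hh₁ : h₁ ∉ 𝔫) :
    p.eval h₁ ∉ 𝔫 := by
  intro hmem
  rw [Polynomial.eval_eq_sum_range, Finset.sum_range_succ] at hmem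
  have hlow : ∑ i ∈ Finset.range p.natDegree, p.coeff i * h₁ ^ i ∈ 𝔫 := by
    refine Ideal.sum_mem _ fun i hi => ?_
    have hi' : i < p.natDegree := Finset.mem_range.mp hi
    have h1 : p.coeff i ∈ J ^ (p.natDegree - i) := hcoeff i
    have h2 : J ^ (p.natDegree - i) ≤ J := Ideal.pow_le_self (by omega)
    exact Ideal.mul_mem_right _ _ (hJ (h2 h1))
  have htop : p.coeff p.natDegree * h₁ ^ p.natDegree ∈ 𝔫 := by
    have := Ideal.sub_mem _ hmem hlow
    simpa using this
  rw [hp.coeff_natDegree, one_mul] at htop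
  exact hh₁ (Ideal.IsPrime.mem_of_pow_mem inferInstance _ htop)

/-- **Determinant trick**: a fibrewise local generator is a local generator.
Here `J` plays the role of `𝔪 B` and `hflat` is the consequence `I ∩ 𝔪B = 𝔪 I` of flatness of
`B / I` over the base. -/
theorem exists_local_generator_of_fibre (I J : Ideal B) (hfg : I.FG)
    (hflat : I ⊓ J ≤ J * I) (𝔫 : Ideal B) [𝔫.IsPrime] (hJ : J ≤ 𝔫)
    (t : B) (ht : t ∈ I) (h₁ : B) (hh₁ : h₁ ∉ 𝔫)
    (hfib : ∀ x ∈ I, h₁ * x ∈ Ideal.span {t} ⊔ J) :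
    ∃ h, h ∉ 𝔫 ∧ ∀ x ∈ I, ∃ b, h * x = t * b := by
  have hspan_le : Ideal.span {t} ≤ I := (Ideal.span_singleton_le_iff_mem I).mpr ht
  let T : Submodule B I := Submodule.comap I.subtype (Ideal.span {t})
  have hfin : Module.Finite B I := Module.Finite.iff_fg.mpr hfg
  let M := (↥I) ⧸ T
  let f : Module.End B M := algebraMap B (Module.End B M) h₁
  have hrange : LinearMap.range f ≤ J • (⊤ : Submodule B M) := by
    rintro _ ⟨m, rfl⟩
    obtain ⟨x, rfl⟩ := Submodule.Quotient.mk_surjective T m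
    obtain ⟨a, ha, y, hy, hay⟩ := Submodule.mem_sup.mp (hfib x x.2)
    have hyI : y ∈ I := by
      have : y = h₁ * x - a := by rw [← hay]; ring
      rw [this]
      exact Ideal.sub_mem _ (Ideal.mul_mem_left _ _ x.2) (hspan_le ha)
    have hyJI : y ∈ J * I := hflat ⟨hyI, hy⟩
    have h1 : (⟨y, hyI⟩ : I) ∈ J • (⊤ : Submodule B I) := by
      rw [Submodule.mem_smul_top_iff]
      exact hyJI
    have h2 : (⟨a, hspan_le ha⟩ : I) ∈ T := ha
    have hsplit : h₁ • x = (⟨a, hspan_le ha⟩ : I) + ⟨y, hyI⟩ := by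
      apply Subtype.ext
      simp only [Submodule.coe_smul, smul_eq_mul, Submodule.coe_add]
      exact hay.symm
    have hfm : f (Submodule.Quotient.mk x) = Submodule.Quotient.mk (p := T) ⟨y, hyI⟩ := by
      simp only [f, Module.algebraMap_end_apply]
      rw [← Submodule.Quotient.mk_smul, hsplit, Submodule.Quotient.mk_add,
        (Submodule.Quotient.mk_eq_zero T).mpr h2, zero_add]
    rw [hfm]
    have : Submodule.map T.mkQ (J • (⊤ : Submodule B I)) = J • (⊤ : Submodule B M) := by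
      rw [Submodule.map_smul'', Submodule.map_top, Submodule.range_mkQ]
    rw [← this]
    exact Submodule.mem_map_of_mem h1
  obtain ⟨p, hmonic, -, hcoeff, hp⟩ :=
    LinearMap.exists_monic_and_natDegree_eq_and_coeff_mem_pow_and_aeval_eq_zero B f J hrange
  refine ⟨p.eval h₁, eval_notMem_of_monic hJ hmonic hcoeff hh₁, fun x hx => ?_⟩
  have hzero : (p.eval h₁) • (Submodule.Quotient.mk (p := T) ⟨x, hx⟩) = 0 := by
    have := congrArg (fun g : Module.End B M => g (Submodule.Quotient.mk (p := T) ⟨x, hx⟩)) hp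
    simp only [f, Polynomial.aeval_algebraMap_apply_eq_algebraMap_eval,
      Module.algebraMap_end_apply, LinearMap.zero_apply] at this
    exact this
  rw [← Submodule.Quotient.mk_smul, Submodule.Quotient.mk_eq_zero] at hzero
  have hmem : p.eval h₁ * x ∈ Ideal.span {t} := hzero
  obtain ⟨b, hb⟩ := Ideal.mem_span_singleton'.mp hmem
  exact ⟨b, by rw [← hb]; ring⟩

end determinantTrick

section dedekind

open scoped nonZeroDivisors

/-- In a Dedekind domain every ideal is locally principal (elementwise form). -/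
theorem exists_local_generator_of_isDedekindDomain {A : Type u} [CommRing A] [IsDedekindDomain A]
    (I₀ : Ideal A) (𝔫₀ : Ideal A) (h𝔫 : 𝔫₀ ≠ ⊤) :
    ∃ t ∈ I₀, ∃ h, h ∉ 𝔫₀ ∧ ∀ y ∈ I₀, ∃ c, h * y = t * c := by
  have h1 : (1 : A) ∉ 𝔫₀ := fun h => h𝔫 ((Ideal.eq_top_iff_one _).mpr h)
  rcases eq_or_ne I₀ ⊥ with rfl | hI
  · refine ⟨0, Ideal.zero_mem _, 1, h1, fun y hy => ⟨0, ?_⟩⟩
    rw [Ideal.mem_bot] at hy
    simp [hy]
  let K := FractionRing A
  let Ifr : FractionalIdeal A⁰ K := (I₀ : FractionalIdeal A⁰ K)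
  have hinv : Ifr * Ifr⁻¹ = 1 := FractionalIdeal.coe_ideal_mul_inv I₀ hI
  have hinj : Function.Injective (algebraMap A K) := IsFractionRing.injective A K
  have key : ∃ x ∈ I₀, ∃ a ∈ Ifr⁻¹, ∃ h : A, algebraMap A K h = algebraMap A K x * a ∧ h ∉ 𝔫₀ := by
    by_contra hcon
    push Not at hcon
    have hle : Ifr * Ifr⁻¹ ≤ (𝔫₀ : FractionalIdeal A⁰ K) := by
      rw [FractionalIdeal.mul_le]
      intro i hi j hj
      obtain ⟨x, hx, rfl⟩ := (FractionalIdeal.mem_coeIdeal _).mp hi
      have hij : algebraMap A K x * j ∈ (1 : FractionalIdeal A⁰ K) := by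
        rw [← hinv]; exact FractionalIdeal.mul_mem_mul hi hj
      obtain ⟨h, hh⟩ := (FractionalIdeal.mem_one_iff _).mp hij
      rw [← hh]
      exact (FractionalIdeal.mem_coeIdeal _).mpr ⟨h, hcon x hx j hj h hh, rfl⟩
    rw [hinv] at hle
    have h1mem : (1 : K) ∈ (𝔫₀ : FractionalIdeal A⁰ K) := hle (FractionalIdeal.one_mem_one _)
    obtain ⟨z, hz, hz1⟩ := (FractionalIdeal.mem_coeIdeal _).mp h1mem
    have : z = 1 := hinj (by rw [hz1, map_one])
    exact h1 (this ▸ hz)
  obtain ⟨x, hx, a, ha, h, hh, hh𝔫⟩ := key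
  refine ⟨x, hx, h, hh𝔫, fun y hy => ?_⟩
  have hay : a * algebraMap A K y ∈ (1 : FractionalIdeal A⁰ K) := by
    rw [← hinv, mul_comm Ifr]
    exact FractionalIdeal.mul_mem_mul ha ((FractionalIdeal.mem_coeIdeal _).mpr ⟨y, hy, rfl⟩)
  obtain ⟨c, hc⟩ := (FractionalIdeal.mem_one_iff _).mp hay
  refine ⟨c, hinj ?_⟩
  rw [map_mul, map_mul, hh, hc]
  ring

end dedekind

open TensorProduct

section flat

variable {S : Type*} [CommRing S]

/-- The multiplication map `𝔪 ⊗ M → M`. -/
noncomputable def mulMapIdeal (𝔪 : Ideal S) (M : Type*) [AddCommGroup M] [Module S M] :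
    (𝔪 ⊗[S] M) →ₗ[S] M :=
  TensorProduct.lift ((LinearMap.lsmul S M).comp 𝔪.subtype)

@[simp]
lemma mulMapIdeal_tmul (𝔪 : Ideal S) (M : Type*) [AddCommGroup M] [Module S M] (m : 𝔪) (b : M) :
    mulMapIdeal 𝔪 M (m ⊗ₜ b) = (m : S) • b := by
  simp [mulMapIdeal]

lemma mulMapIdeal_injective_of_flat (𝔪 : Ideal S) (Q : Type*) [AddCommGroup Q] [Module S Q]
    [Module.Flat S Q] : Function.Injective (mulMapIdeal 𝔪 Q) := by
  have h1 : mulMapIdeal 𝔪 Q = (TensorProduct.lid S Q).toLinearMap ∘ₗ 𝔪.subtype.rTensor Q := by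
    apply TensorProduct.ext'
    intro m b
    simp
  rw [h1]
  exact (TensorProduct.lid S Q).injective.comp
    (Module.Flat.rTensor_preserves_injective_linearMap 𝔪.subtype Subtype.val_injective)

lemma exists_mulMapIdeal_eq (𝔪 : Ideal S) {M : Type*} [AddCommGroup M] [Module S M] {x : M}
    (hx : x ∈ 𝔪 • (⊤ : Submodule S M)) : ∃ ξ, mulMapIdeal 𝔪 M ξ = x := by
  refine Submodule.smul_induction_on (p := fun x => ∃ ξ, mulMapIdeal 𝔪 M ξ = x) hx ?_ ?_
  · intro r hr n _
    exact ⟨(⟨r, hr⟩ : 𝔪) ⊗ₜ n, by simp⟩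
  · rintro x y ⟨ξ, rfl⟩ ⟨η, rfl⟩
    exact ⟨ξ + η, map_add _ _ _⟩

/-- If `M / N` is flat then `N ∩ 𝔪 M = 𝔪 N`. -/
theorem mem_smul_ker_of_flat {M Q : Type*} [AddCommGroup M] [Module S M]
    [AddCommGroup Q] [Module S Q] [Module.Flat S Q] (q : M →ₗ[S] Q) (hq : Function.Surjective q)
    (𝔪 : Ideal S) {x : M} (hx : q x = 0) (hx' : x ∈ 𝔪 • (⊤ : Submodule S M)) :
    x ∈ 𝔪 • LinearMap.ker q := by
  obtain ⟨ξ, rfl⟩ := exists_mulMapIdeal_eq 𝔪 hx'
  have hnat : mulMapIdeal 𝔪 Q ∘ₗ q.lTensor 𝔪 = q ∘ₗ mulMapIdeal 𝔪 M := by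
    apply TensorProduct.ext'
    intro m b
    simp
  have h0 : q.lTensor 𝔪 ξ = 0 := by
    apply mulMapIdeal_injective_of_flat 𝔪 Q
    rw [map_zero]
    have := congrArg (fun g => g ξ) hnat
    simpa [hx] using this
  have hex : Function.Exact ((LinearMap.ker q).subtype.lTensor 𝔪) (q.lTensor 𝔪) :=
    lTensor_exact 𝔪 (LinearMap.exact_subtype_ker_map q) hq
  obtain ⟨η, rfl⟩ := (hex ξ).mp h0
  clear h0 hx hx'
  induction η using TensorProduct.induction_on with
  | zero => simp
  | tmul m n =>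
    simp only [LinearMap.lTensor_tmul, Submodule.subtype_apply, mulMapIdeal_tmul]
    exact Submodule.smul_mem_smul m.2 n.2
  | add a b ha hb =>
    rw [map_add, map_add]
    exact Submodule.add_mem _ ha hb

end flat

/-- Ring version: if `B / I` is flat over `S` then `I ∩ 𝔪 B ⊆ 𝔪 B · I`. -/
theorem inf_map_le_of_flat {S B : Type*} [CommRing S] [CommRing B] [Algebra S B] (I : Ideal B)
    [Module.Flat S (B ⧸ I)] (𝔪 : Ideal S) :
    I ⊓ 𝔪.map (algebraMap S B) ≤ 𝔪.map (algebraMap S B) * I := by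
  rintro x ⟨hxI, hx𝔪⟩
  let q : B →ₗ[S] B ⧸ I := (Ideal.Quotient.mkₐ S I).toLinearMap
  have hq : Function.Surjective q := Ideal.Quotient.mk_surjective
  have hker : ∀ y, y ∈ LinearMap.ker q ↔ y ∈ I := fun y => by
    simp only [q, LinearMap.mem_ker, AlgHom.toLinearMap_apply, Ideal.Quotient.mkₐ_eq_mk]
    exact Ideal.Quotient.eq_zero_iff_mem
  have hx1 : q x = 0 := (hker x).mpr hxI
  have hx2 : x ∈ 𝔪 • (⊤ : Submodule S B) := by
    rw [Ideal.smul_top_eq_map]
    exact hx𝔪
  have key := mem_smul_ker_of_flat q hq 𝔪 hx1 hx2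
  refine Submodule.smul_induction_on (p := fun x => x ∈ 𝔪.map (algebraMap S B) * I) key ?_ ?_
  · intro r hr n hn
    rw [Algebra.smul_def]
    exact Ideal.mul_mem_mul (Ideal.mem_map_of_mem _ hr) ((hker n).mp hn)
  · intro a b ha hb
    exact Ideal.add_mem _ ha hb

section assembly

open TensorProduct

/-- **Fibre lemma.**  If `π : B → A₀` is a surjection onto a Dedekind domain, every ideal of `B`
is principal modulo `ker π` near every proper ideal `𝔫 ⊇ ker π`. -/
theorem exists_fibre_generator_of_surjective {B : Type*} {A₀ : Type*} [CommRing B] [CommRing A₀]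
    [IsDedekindDomain A₀] (π : B →+* A₀) (hπ : Function.Surjective π) (I 𝔫 : Ideal B)
    (h𝔫 : 𝔫 ≠ ⊤) (hker : RingHom.ker π ≤ 𝔫) :
    ∃ t ∈ I, ∃ h₁, h₁ ∉ 𝔫 ∧ ∀ x ∈ I, h₁ * x ∈ Ideal.span {t} ⊔ RingHom.ker π := by
  have hcomap : (𝔫.map π).comap π = 𝔫 := by
    rw [Ideal.comap_map_of_surjective π hπ]
    exact sup_eq_left.mpr hker
  have h𝔫₀ : 𝔫.map π ≠ ⊤ := by
    intro htop
    apply h𝔫
    rw [← hcomap, htop, Ideal.comap_top]
  obtain ⟨t₀, ht₀, h₀, hh₀, hgen⟩ :=
    exists_local_generator_of_isDedekindDomain (I.map π) (𝔫.map π) h𝔫₀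
  obtain ⟨t, ht, rfl⟩ := (Ideal.mem_map_iff_of_surjective π hπ).mp ht₀
  obtain ⟨h₁, rfl⟩ := hπ h₀
  refine ⟨t, ht, h₁, fun hmem => hh₀ (Ideal.mem_map_of_mem π hmem), fun x hx => ?_⟩
  obtain ⟨c, hc⟩ := hgen (π x) (Ideal.mem_map_of_mem π hx)
  obtain ⟨c', rfl⟩ := hπ c
  have hk : h₁ * x - t * c' ∈ RingHom.ker π := by
    rw [RingHom.mem_ker, map_sub, map_mul, map_mul, hc, sub_self]
  have hsplit : h₁ * x = t * c' + (h₁ * x - t * c') := by ring
  rw [hsplit]
  exact Submodule.add_mem_sup (Ideal.mem_span_singleton'.mpr ⟨c', by ring⟩) hk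

/-- **(Inv), abstract form.**  Let `B` be an `S`-algebra and `I` a finitely generated ideal of `B`
with `B / I` finite and flat over `S`, containing a non-zero-divisor.  If every closed fibre
`B / 𝔪 B` (presented as a surjection `π : B → A₀` with kernel `𝔪 B`) is a Dedekind domain, then
`I` is an invertible `B`-module. -/
theorem invertible_of_dedekind_fibres {S : Type*} {B : Type*} [CommRing S] [CommRing B]
    [Algebra S B] (I : Ideal B) (hfg : I.FG) [Module.Finite S (B ⧸ I)] [Module.Flat S (B ⧸ I)]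
    (hfib : ∀ 𝔪 : Ideal S, 𝔪.IsMaximal →
      ∃ (A₀ : Type u) (_ : CommRing A₀) (_ : IsDedekindDomain A₀) (π : B →+* A₀),
        Function.Surjective π ∧ RingHom.ker π = 𝔪.map (algebraMap S B))
    (F : B) (hF : F ∈ I) (hreg : F ∈ nonZeroDivisors B) : Module.Invertible B I := by
  apply invertible_of_locally_principal I F hF hreg
  intro 𝔫 h𝔫
  by_cases hI : I ≤ 𝔫
  · -- the contraction of `𝔫` to `S` is maximal
    have hmk : Function.Surjective (Ideal.Quotient.mk I) := Ideal.Quotient.mk_surjective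
    have hcm : (𝔫.map (Ideal.Quotient.mk I)).comap (Ideal.Quotient.mk I) = 𝔫 := by
      rw [Ideal.comap_map_of_surjective _ hmk, ← RingHom.ker_eq_comap_bot, Ideal.mk_ker]
      exact sup_eq_left.mpr hI
    have hmax' : (𝔫.map (Ideal.Quotient.mk I)).IsMaximal := by
      rcases Ideal.map_eq_top_or_isMaximal_of_surjective _ hmk h𝔫 with htop | hmax
      · exfalso
        apply h𝔫.ne_top
        rw [← hcm, htop, Ideal.comap_top]
      · exact hmax
    have hint : (algebraMap S (B ⧸ I)).IsIntegral :=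
      fun x => Algebra.IsIntegral.isIntegral (R := S) x
    have h𝔪 : (𝔫.comap (algebraMap S B)).IsMaximal := by
      have := Ideal.isMaximal_comap_of_isIntegral_of_isMaximal' (algebraMap S (B ⧸ I)) hint
        (𝔫.map (Ideal.Quotient.mk I))
      have heq : (𝔫.map (Ideal.Quotient.mk I)).comap (algebraMap S (B ⧸ I))
          = 𝔫.comap (algebraMap S B) := by
        rw [← Ideal.Quotient.mk_comp_algebraMap, ← Ideal.comap_comap, hcm]
      rwa [heq] at this
    obtain ⟨A₀, _, _, π, hπ, hker⟩ := hfib _ h𝔪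
    have hJ : (𝔫.comap (algebraMap S B)).map (algebraMap S B) ≤ 𝔫 := Ideal.map_comap_le
    have : 𝔫.IsPrime := h𝔫.isPrime
    obtain ⟨t, ht, h₁, hh₁, hgen⟩ :=
      exists_fibre_generator_of_surjective π hπ I 𝔫 h𝔫.ne_top (hker ▸ hJ)
    rw [hker] at hgen
    exact ⟨t, ht, exists_local_generator_of_fibre I _ hfg
      (inf_map_le_of_flat I (𝔫.comap (algebraMap S B))) 𝔫 hJ t ht h₁ hh₁ hgen⟩
  · obtain ⟨t, ht, ht𝔫⟩ := SetLike.not_le_iff_exists.mp hI
    exact ⟨t, ht, t, ht𝔫, fun x _ => ⟨x, rfl⟩⟩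

/-- A maximal ideal of a finite type algebra over an algebraically closed field is the kernel of
a `k`-point. -/
theorem exists_algHom_ker_eq {k : Type*} {S : Type*} [Field k] [IsAlgClosed k] [CommRing S]
    [Algebra k S] [Algebra.FiniteType k S] (𝔪 : Ideal S) [h𝔪 : 𝔪.IsMaximal] :
    ∃ ev : S →ₐ[k] k, RingHom.ker ev.toRingHom = 𝔪 := by
  let _ : Field (S ⧸ 𝔪) := Ideal.Quotient.field 𝔪
  have hft : Algebra.FiniteType k (S ⧸ 𝔪) :=
    Algebra.FiniteType.of_surjective (Ideal.Quotient.mkₐ k 𝔪) (Ideal.Quotient.mkₐ_surjective k 𝔪)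
  have hfin : Module.Finite k (S ⧸ 𝔪) := finite_of_finite_type_of_isJacobsonRing k (S ⧸ 𝔪)
  have hbij : Function.Bijective (algebraMap k (S ⧸ 𝔪)) :=
    IsAlgClosed.algebraMap_bijective_of_isIntegral
  let e : k ≃ₐ[k] (S ⧸ 𝔪) := AlgEquiv.ofBijective (Algebra.ofId k (S ⧸ 𝔪)) hbij
  refine ⟨e.symm.toAlgHom.comp (Ideal.Quotient.mkₐ k 𝔪), ?_⟩
  ext x
  simp only [RingHom.mem_ker, AlgHom.toRingHom_eq_coe, RingHom.coe_coe, AlgHom.coe_comp,
    AlgEquiv.coe_toAlgHom, Function.comp_apply, Ideal.Quotient.mkₐ_eq_mk,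
    EmbeddingLike.map_eq_zero_iff]
  exact Ideal.Quotient.eq_zero_iff_mem

/-- **(Inv) for relative effective divisors on an affine curve.**  `k` algebraically closed, `S`
and `A` finite type `k`-algebras, `A` a Dedekind domain.  An ideal `I` of `S ⊗[k] A` whose
quotient is finite and flat over `S`, and which contains a non-zero-divisor, is an invertible
`S ⊗[k] A`-module. -/
theorem invertible_of_finite_flat_quotient {k : Type*} {S : Type*} {A : Type u} [Field k]
    [IsAlgClosed k] [CommRing S] [Algebra k S] [Algebra.FiniteType k S] [CommRing A] [Algebra k A]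
    [Algebra.FiniteType k A] [IsDedekindDomain A] (I : Ideal (S ⊗[k] A))
    [Module.Finite S ((S ⊗[k] A) ⧸ I)] [Module.Flat S ((S ⊗[k] A) ⧸ I)]
    (F : S ⊗[k] A) (hF : F ∈ I) (hreg : F ∈ nonZeroDivisors (S ⊗[k] A)) :
    Module.Invertible (S ⊗[k] A) I := by
  have hS : IsNoetherianRing S := Algebra.FiniteType.isNoetherianRing k S
  have hB : IsNoetherianRing (S ⊗[k] A) := Algebra.FiniteType.isNoetherianRing S (S ⊗[k] A)
  refine invertible_of_dedekind_fibres (S := S) I (IsNoetherian.noetherian I) ?_ F hF hreg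
  intro 𝔪 h𝔪
  obtain ⟨ev, hev⟩ := exists_algHom_ker_eq (k := k) 𝔪
  have hevs : Function.Surjective ev := fun c => ⟨algebraMap k S c, by simp⟩
  let ρ : S ⊗[k] A →ₐ[k] k ⊗[k] A := Algebra.TensorProduct.map ev (AlgHom.id k A)
  have hρ : Function.Surjective ρ := LinearMap.rTensor_surjective A hevs
  have hkρ : RingHom.ker ρ = 𝔪.map (algebraMap S (S ⊗[k] A)) := by
    have := Algebra.TensorProduct.rTensor_ker (R := k) (C := A) ev hevs
    rw [← hev]
    exact this
  let l : k ⊗[k] A ≃ₐ[k] A := Algebra.TensorProduct.lid k A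
  refine ⟨A, inferInstance, inferInstance, (l.toAlgHom.comp ρ).toRingHom, ?_, ?_⟩
  · exact l.surjective.comp hρ
  · rw [← hkρ]
    ext x
    simp only [RingHom.mem_ker, AlgHom.toRingHom_eq_coe, RingHom.coe_coe, AlgHom.coe_comp,
      AlgEquiv.coe_toAlgHom, Function.comp_apply, EmbeddingLike.map_eq_zero_iff]

end assembly

section general

open TensorProduct Polynomial

/-- **Cayley–Hamilton, ideal form.**  If `B / I` is finite over `S`, every element of `B`
satisfies a monic polynomial over `S` modulo `I`. -/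
theorem exists_monic_aeval_mem {S : Type*} {B : Type*} [CommRing S] [CommRing B] [Algebra S B]
    (I : Ideal B) [Module.Finite S (B ⧸ I)] (β : B) : ∃ p : S[X], p.Monic ∧ aeval β p ∈ I := by
  obtain ⟨p, hp, hp0⟩ := Algebra.IsIntegral.isIntegral (R := S) (Ideal.Quotient.mk I β)
  refine ⟨p, hp, ?_⟩
  have h1 : aeval (Ideal.Quotient.mkₐ S I β) p = Ideal.Quotient.mkₐ S I (aeval β p) :=
    aeval_algHom_apply (Ideal.Quotient.mkₐ S I) β p
  have h2 : aeval (Ideal.Quotient.mkₐ S I β) p = 0 := hp0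
  rw [h1] at h2
  exact Ideal.Quotient.eq_zero_iff_mem.mp h2

/-- If `B` is free over `S[β]` (polynomial ring) on a finite family `e`, then monic polynomials
in `β` are non-zero-divisors of `B`. -/
theorem aeval_mem_nonZeroDivisors_of_injective {S : Type*} {B : Type*} [CommRing S] [CommRing B]
    [Algebra S B] (β : B) {ι : Type*} [Fintype ι] (e : ι → B)
    (hinj : Function.Injective (fun c : ι → S[X] => ∑ i, aeval β (c i) * e i))
    (hsurj : Function.Surjective (fun c : ι → S[X] => ∑ i, aeval β (c i) * e i))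
    {p : S[X]} (hp : p.Monic) : aeval β p ∈ nonZeroDivisors B := by
  rw [mem_nonZeroDivisors_iff_right]
  intro y hy
  obtain ⟨c, rfl⟩ := hsurj y
  have h0 : (fun c : ι → S[X] => ∑ i, aeval β (c i) * e i) (fun i => p * c i)
      = (fun c : ι → S[X] => ∑ i, aeval β (c i) * e i) 0 := by
    simp only [Pi.zero_apply, map_zero, zero_mul, Finset.sum_const_zero]
    rw [← hy, Finset.sum_mul]
    refine Finset.sum_congr rfl fun i _ => ?_
    rw [map_mul]
    ring
  have h1 := hinj h0
  have hc : c = 0 := by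
    funext i
    have := congrFun h1 i
    simpa using hp.mul_right_eq_zero_iff.mp this
  simp [hc]

/-- An ideal of a finitely presented algebra with finite projective quotient is finitely
generated. -/
theorem fg_of_finite_projective_quotient {R : Type*} {B : Type*} [CommRing R] [CommRing B]
    [Algebra R B] [Algebra.FinitePresentation R B] (I : Ideal B) [Module.Finite R (B ⧸ I)]
    [Module.Projective R (B ⧸ I)] : I.FG := by
  have h1 : Module.FinitePresentation R (B ⧸ I) := Module.finitePresentation_of_projective R _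
  have h2 : Algebra.FinitePresentation R (B ⧸ I) := inferInstance
  have := Algebra.FinitePresentation.ker_fG_of_surjective (Ideal.Quotient.mkₐ R I)
    (Ideal.Quotient.mkₐ_surjective R I)
  have hk : RingHom.ker (Ideal.Quotient.mkₐ R I).toRingHom = I := Ideal.Quotient.mkₐ_ker R I
  rwa [hk] at this

/-- **(Inv) over an arbitrary base.**  `k` a field, `R` any `k`-algebra, `A` a finite type
`k`-algebra which is free over `k[f]` on `b` compatibly with the base change to `R`, and whose
fibres `(R / 𝔪) ⊗[k] A` are Dedekind domains.  Then every ideal `I` of `R ⊗[k] A` with quotient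
finite projective over `R` is an invertible `R ⊗[k] A`-module. -/
theorem invertible_of_finite_projective_quotient {k : Type*} {R : Type*} {A : Type*} [Field k]
    [CommRing R] [Algebra k R] [CommRing A] [Algebra k A] [Algebra.FiniteType k A]
    (hDed : ∀ 𝔪 : Ideal R, 𝔪.IsMaximal → IsDedekindDomain ((R ⧸ 𝔪) ⊗[k] A))
    (f : A) {ι : Type*} [Fintype ι] (b : ι → A)
    (hinj : Function.Injective (fun c : ι → R[X] =>
      ∑ i, aeval ((1 : R) ⊗ₜ[k] f) (c i) * ((1 : R) ⊗ₜ[k] b i)))
    (hsurj : Function.Surjective (fun c : ι → R[X] =>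
      ∑ i, aeval ((1 : R) ⊗ₜ[k] f) (c i) * ((1 : R) ⊗ₜ[k] b i)))
    (I : Ideal (R ⊗[k] A)) [Module.Finite R ((R ⊗[k] A) ⧸ I)]
    [Module.Projective R ((R ⊗[k] A) ⧸ I)] : Module.Invertible (R ⊗[k] A) I := by
  have hfp : Algebra.FinitePresentation k A := Algebra.FinitePresentation.of_finiteType.mp inferInstance
  obtain ⟨p, hp, hpI⟩ := exists_monic_aeval_mem (S := R) I ((1 : R) ⊗ₜ[k] f)
  have hreg := aeval_mem_nonZeroDivisors_of_injective (S := R) ((1 : R) ⊗ₜ[k] f)
    (fun i => (1 : R) ⊗ₜ[k] b i) hinj hsurj hp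
  have hB : Algebra.FinitePresentation R (R ⊗[k] A) := inferInstance
  refine invertible_of_dedekind_fibres (S := R) I (fg_of_finite_projective_quotient (R := R) I) ?_
    _ hpI hreg
  intro 𝔪 h𝔪
  have hq : Function.Surjective (Ideal.Quotient.mkₐ k 𝔪) := Ideal.Quotient.mkₐ_surjective k 𝔪
  let ρ : R ⊗[k] A →ₐ[k] (R ⧸ 𝔪) ⊗[k] A :=
    Algebra.TensorProduct.map (Ideal.Quotient.mkₐ k 𝔪) (AlgHom.id k A)
  have hρ : Function.Surjective ρ := LinearMap.rTensor_surjective A hq
  have hkρ : RingHom.ker ρ = 𝔪.map (algebraMap R (R ⊗[k] A)) := by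
    have := Algebra.TensorProduct.rTensor_ker (R := k) (C := A) (Ideal.Quotient.mkₐ k 𝔪) hq
    have hk : RingHom.ker (Ideal.Quotient.mkₐ k 𝔪) = 𝔪 := Ideal.Quotient.mkₐ_ker k 𝔪
    rw [hk] at this
    exact this
  exact ⟨(R ⧸ 𝔪) ⊗[k] A, inferInstance, hDed 𝔪 h𝔪, ρ.toRingHom, hρ, hkρ⟩

end general

end Fermat.Agent.S25.Lib.Inv.ProjQuot
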