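/-
S25 LIB, `Lib/Inv/Curve.lean` (helper2450; after helper325 `InvCurve325.lean`, rebuilt on the
published `Lib/Curve/*` of helper10): lemma (Inv) in the frozen vocabulary.

For a curve presentation `𝒞 : CurveData k` (`k` algebraically closed) and an ARBITRARY `k`-algebra
`R` (no noetherian hypothesis):
* `isDedekindDomain_tensor_A₁_of_field` : `κ ⊗[k] A_i` is a Dedekind domain for EVERY field
  extension `κ` of `k` (not only algebraically closed ones);
* `invertible_ideal₁/₂` : every ideal of `B_i = (𝒞.chart R).B_i` whose quotient is finite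
  projective over `R` is an invertible `B_i`-module;
* `invertible_ker₁/₂` : kernels of surjections `B_i → Q` onto finite projective `R`-algebras
  are invertible modules.
-/
import Fermat.Agent.S25.Lib.Inv.ProjQuot
import Fermat.Agent.S25.Lib.Inv.DedekindSmooth
import Fermat.Agent.S25.Lib.Curve.Basic

set_option autoImplicit false
set_option linter.style.haveILetI false

universe u

namespace Fermat.Agent.S25.Lib.Inv

open Fermat.Agent.S25

open scoped TensorProduct Polynomial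

section fibres

variable {k : Type u} [Field k] (𝒞 : CurveData k)

theorem smooth_A₁ : Algebra.Smooth k 𝒞.A₁ :=
  DedekindSmooth.smooth_of_locally_isStandardSmoothOfRelativeDimension 1 𝒞.smooth₁

theorem smooth_A₂ : Algebra.Smooth k 𝒞.A₂ :=
  DedekindSmooth.smooth_of_locally_isStandardSmoothOfRelativeDimension 1 𝒞.smooth₂

theorem isIntegral_adjoin_f : Algebra.IsIntegral (Algebra.adjoin k ({𝒞.f} : Set 𝒞.A₁)) 𝒞.A₁ :=
  haveI := 𝒞.fin₁
  inferInstance

theorem isIntegral_adjoin_g : Algebra.IsIntegral (Algebra.adjoin k ({𝒞.g} : Set 𝒞.A₂)) 𝒞.A₂ :=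
  haveI := 𝒞.fin₂
  inferInstance

variable [IsAlgClosed k] (κ : Type u) [Field κ] [Algebra k κ]

/-- `κ ⊗[k] A₁` is a Dedekind domain for every field extension `κ` of `k`. -/
theorem isDedekindDomain_tensor_A₁_of_field : IsDedekindDomain (κ ⊗[k] 𝒞.A₁) := by
  haveI := Lib.Curve.isDomain_tensor_A₁ 𝒞 κ
  haveI := smooth_A₁ 𝒞
  haveI := isIntegral_adjoin_f 𝒞
  exact DedekindSmooth.isDedekindDomain_baseChange k κ 𝒞.f

/-- `κ ⊗[k] A₂` is a Dedekind domain for every field extension `κ` of `k`. -/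
theorem isDedekindDomain_tensor_A₂_of_field : IsDedekindDomain (κ ⊗[k] 𝒞.A₂) := by
  haveI := Lib.Curve.isDomain_tensor_A₂ 𝒞 κ
  haveI := smooth_A₂ 𝒞
  haveI := isIntegral_adjoin_g 𝒞
  exact DedekindSmooth.isDedekindDomain_baseChange k κ 𝒞.g

end fibres

section curve

variable {k : Type u} [Field k] [IsAlgClosed k] (𝒞 : CurveData k)
  (R : Type u) [CommRing R] [Algebra k R]

/-- **(Inv), first chart, tensor form.**  Ideals of `R ⊗[k] A₁` with finite projective quotient
over `R` are invertible modules, for every `k`-algebra `R`. -/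
theorem invertible_ideal_tensor₁ (I : Ideal (R ⊗[k] 𝒞.A₁))
    [Module.Finite R ((R ⊗[k] 𝒞.A₁) ⧸ I)] [Module.Projective R ((R ⊗[k] 𝒞.A₁) ⧸ I)] :
    Module.Invertible (R ⊗[k] 𝒞.A₁) I := by
  haveI := Lib.Curve.finiteType_A₁ 𝒞
  have hb := Lib.Curve.bijective_basis₁_tensor 𝒞 R
  refine ProjQuot.invertible_of_finite_projective_quotient (k := k) (R := R) (A := 𝒞.A₁) ?_ 𝒞.f
    (Lib.Curve.basis₁ 𝒞) hb.1 hb.2 I
  intro 𝔪 h𝔪
  letI : Field (R ⧸ 𝔪) := Ideal.Quotient.field 𝔪
  exact isDedekindDomain_tensor_A₁_of_field 𝒞 (R ⧸ 𝔪)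

/-- **(Inv), second chart, tensor form.** -/
theorem invertible_ideal_tensor₂ (I : Ideal (R ⊗[k] 𝒞.A₂))
    [Module.Finite R ((R ⊗[k] 𝒞.A₂) ⧸ I)] [Module.Projective R ((R ⊗[k] 𝒞.A₂) ⧸ I)] :
    Module.Invertible (R ⊗[k] 𝒞.A₂) I := by
  haveI := Lib.Curve.finiteType_A₂ 𝒞
  have hb := Lib.Curve.bijective_basis₂_tensor 𝒞 R
  refine ProjQuot.invertible_of_finite_projective_quotient (k := k) (R := R) (A := 𝒞.A₂) ?_ 𝒞.g
    (Lib.Curve.basis₂ 𝒞) hb.1 hb.2 I
  intro 𝔪 h𝔪
  letI : Field (R ⧸ 𝔪) := Ideal.Quotient.field 𝔪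
  exact isDedekindDomain_tensor_A₂_of_field 𝒞 (R ⧸ 𝔪)

/-- **(Inv), first chart.**  Ideals of `(𝒞.chart R).B₁` with finite projective quotient over `R`
are invertible modules, for every `k`-algebra `R`. -/
theorem invertible_ideal₁ (I : Ideal (𝒞.chart R).B₁)
    [hfin : Module.Finite R ((𝒞.chart R).B₁ ⧸ I)]
    [hproj : Module.Projective R ((𝒞.chart R).B₁ ⧸ I)] :
    Module.Invertible (𝒞.chart R).B₁ I := by
  haveI h1 : Module.Finite R ((R ⊗[k] 𝒞.A₁) ⧸ (show Ideal (R ⊗[k] 𝒞.A₁) from I)) := hfin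
  haveI h2 : Module.Projective R ((R ⊗[k] 𝒞.A₁) ⧸ (show Ideal (R ⊗[k] 𝒞.A₁) from I)) := hproj
  exact invertible_ideal_tensor₁ 𝒞 R I

/-- **(Inv), second chart.** -/
theorem invertible_ideal₂ (I : Ideal (𝒞.chart R).B₂)
    [hfin : Module.Finite R ((𝒞.chart R).B₂ ⧸ I)]
    [hproj : Module.Projective R ((𝒞.chart R).B₂ ⧸ I)] :
    Module.Invertible (𝒞.chart R).B₂ I := by
  haveI h1 : Module.Finite R ((R ⊗[k] 𝒞.A₂) ⧸ (show Ideal (R ⊗[k] 𝒞.A₂) from I)) := hfin
  haveI h2 : Module.Projective R ((R ⊗[k] 𝒞.A₂) ⧸ (show Ideal (R ⊗[k] 𝒞.A₂) from I)) := hproj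
  exact invertible_ideal_tensor₂ 𝒞 R I

variable {R}

/-- Transport of "finite projective quotient" along the first isomorphism theorem. -/
theorem finite_projective_quotient_ker {B : Type*} {Q : Type*} [CommRing B] [Algebra R B]
    [CommRing Q] [Algebra R Q] [Module.Finite R Q] [Module.Projective R Q] (π : B →ₐ[R] Q)
    (hπ : Function.Surjective π) :
    Module.Finite R (B ⧸ RingHom.ker π.toRingHom) ∧
      Module.Projective R (B ⧸ RingHom.ker π.toRingHom) := by
  let e : (B ⧸ RingHom.ker π.toRingHom) ≃ₐ[R] Q := Ideal.quotientKerAlgEquivOfSurjective hπ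
  exact ⟨Module.Finite.equiv e.symm.toLinearEquiv, Module.Projective.of_equiv e.symm.toLinearEquiv⟩

/-- Kernels of surjections `B₁ → Q` onto finite projective `R`-algebras are invertible. -/
theorem invertible_ker₁ {Q : Type*} [CommRing Q] [Algebra R Q] [Module.Finite R Q]
    [Module.Projective R Q] (π : (𝒞.chart R).B₁ →ₐ[R] Q) (hπ : Function.Surjective π) :
    Module.Invertible (𝒞.chart R).B₁ (RingHom.ker π.toRingHom) := by
  obtain ⟨h1, h2⟩ := finite_projective_quotient_ker π hπ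
  exact invertible_ideal₁ 𝒞 R _

/-- Kernels of surjections `B₂ → Q` onto finite projective `R`-algebras are invertible. -/
theorem invertible_ker₂ {Q : Type*} [CommRing Q] [Algebra R Q] [Module.Finite R Q]
    [Module.Projective R Q] (π : (𝒞.chart R).B₂ →ₐ[R] Q) (hπ : Function.Surjective π) :
    Module.Invertible (𝒞.chart R).B₂ (RingHom.ker π.toRingHom) := by
  obtain ⟨h1, h2⟩ := finite_projective_quotient_ker π hπ
  exact invertible_ideal₂ 𝒞 R _

end curve

end Fermat.Agent.S25.Lib.Inv
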